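import Fermat.Agent.LevinsonThird.Edges
import Fermat.Agent.Levinson.Factor
import Fermat.Agent.ExplicitFormula.Residue

/-!
# The argument principle on a box
-/

set_option autoImplicit false

noncomputable section

open Complex Filter Topology Set MeasureTheory
open FA.ExplicitFormula (boxInt boxInt_congr boxInt_add boxInt_eq_zero boxEdges interior_not_edge)
open FA.RiemannMangoldt (rootProd rootProd_ne_zero hasDerivAt_rootProd)
open FA.LevinsonThird (boxInt_sum_poles)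
open scoped Real

namespace FA.SelbergZeroCount

variable {f : ℂ → ℂ}

/-- The zeros in the box. -/
def boxZeros (f : ℂ → ℂ) (a b T : ℝ) : Set ℂ :=
  {ρ | f ρ = 0 ∧ a ≤ ρ.re ∧ ρ.re ≤ b ∧ |ρ.im| ≤ T}

/-- Their number, with multiplicity. -/
def boxCount (f : ℂ → ℂ) (a b T : ℝ) : ℕ := ∑ᶠ ρ ∈ boxZeros f a b T, analyticOrderNatAt f ρ

theorem order_ne_top (hf : Differentiable ℂ f) {z₀ : ℂ} (h : f z₀ ≠ 0) (z : ℂ) :
    analyticOrderAt f z ≠ ⊤ := fun h1 =>
  h ((analyticOnNhd_univ_iff_differentiable.2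
    hf).eqOn_zero_of_preconnected_of_eventuallyEq_zero isPreconnected_univ (mem_univ z)
      (analyticOrderAt_eq_top.1 h1) (mem_univ z₀))

theorem finite_boxZeros (hf : Differentiable ℂ f) (hord : ∀ z, analyticOrderAt f z ≠ ⊤)
    (a b T : ℝ) : (boxZeros f a b T).Finite :=
  (FA.Levinson.finite_zeros_compact isOpen_univ
    ((isCompact_Icc.reProdIm isCompact_Icc : IsCompact (Icc a b ×ℂ Icc (-T) T)))
    (subset_univ _) hf.differentiableOn fun z _ => hord z).subset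
      fun _ ⟨h, h1, h2, h3⟩ => ⟨mem_reProdIm.2 ⟨⟨h1, h2⟩, abs_le.1 h3⟩, h⟩

theorem boxCount_eq_sum (hf : Differentiable ℂ f) (hord : ∀ z, analyticOrderAt f z ≠ ⊤)
    (a b T : ℝ) :
    boxCount f a b T = ∑ ρ ∈ (finite_boxZeros hf hord a b T).toFinset, analyticOrderNatAt f ρ :=
  finsum_mem_eq_finite_toFinset_sum _ _

/-- **The argument principle.** -/
theorem boxInt_logDeriv_eq (hf : Differentiable ℂ f) (hord : ∀ z, analyticOrderAt f z ≠ ⊤)
    {a b T : ℝ} (hab : a ≤ b) (hT : 0 ≤ T)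
    (hedge : ∀ ρ, f ρ = 0 → a ≤ ρ.re → ρ.re ≤ b → |ρ.im| ≤ T →
      a < ρ.re ∧ ρ.re < b ∧ |ρ.im| < T) :
    boxInt (fun s => deriv f s / f s) a b T = 2 * π * I * boxCount f a b T := by
  classical
  obtain ⟨K, hK⟩ : ∃ K : Set ℂ, K = Icc a b ×ℂ Icc (-T) T := ⟨_, rfl⟩
  obtain ⟨Z, h, hh, he, hZK, hne, hcount⟩ := FA.Levinson.exists_compact_factor isOpen_univ
    (hK ▸ isCompact_Icc.reProdIm isCompact_Icc : IsCompact K) (subset_univ _)
    hf.differentiableOn fun z _ => hord z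
  have hh' : Differentiable ℂ h := fun z => hh.differentiableAt univ_mem
  have hmemK : ∀ s : ℂ, s.re ∈ Icc a b → s.im ∈ Icc (-T) T → s ∈ K := fun s h1 h2 => by
    rw [hK, mem_reProdIm]
    exact ⟨h1, h2⟩
  have hZ0 : ∀ ρ ∈ Z, f ρ = 0 := fun ρ hρ => by
    rw [he]
    refine mul_eq_zero_of_left ?_ _
    simp only [rootProd, Multiset.prod_eq_zero_iff, Multiset.mem_map]
    exact ⟨ρ, hρ, sub_self ρ⟩
  have hZin : ∀ ρ ∈ Z, a < ρ.re ∧ ρ.re < b ∧ |ρ.im| < T := fun ρ hρ => by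
    have h2 := hZK ρ hρ
    rw [hK, mem_reProdIm] at h2
    exact hedge ρ (hZ0 ρ hρ) h2.1.1 h2.1.2 (abs_le.2 h2.2)
  obtain ⟨hc1, hi1⟩ := boxInt_sum_poles (Φ := fun _ => (1 : ℂ)) (differentiable_const _) hT Z hZin
  have hedge' : ∀ s ∈ boxEdges a b T, s ∈ K ∧ ∀ ρ ∈ Z, s ≠ ρ := fun s hs => by
    refine ⟨?_, fun ρ hρ => ?_⟩
    · obtain ⟨h1, h2, -⟩ := hs
      rw [uIcc_of_le hab] at h1
      rw [uIcc_of_le (by linarith)] at h2
      exact hmemK s h1 h2
    · obtain ⟨a1, a2, a3⟩ := hZin ρ hρ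
      exact interior_not_edge a1 a2 a3.ne hT hs
  have hH : ∀ s ∈ K, DifferentiableAt ℂ (fun z => deriv h z / h z) s := fun s hs =>
    ((hh'.analyticAt s).deriv.differentiableAt).div (hh' s) (hne s hs)
  have heq : boxInt (fun s => deriv f s / f s) a b T = boxInt (fun s =>
      (Z.map fun w => (1 : ℂ) / (s - w)).sum + deriv h s / h s) a b T := by
    refine boxInt_congr fun s hs => ?_
    obtain ⟨hsK, hsne⟩ := hedge' s hs
    have hd' : deriv f s =
        rootProd Z s * (Z.map fun ρ => (s - ρ)⁻¹).sum * h s + rootProd Z s * deriv h s := by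
      rw [show f = fun w => rootProd Z w * h w from funext he]
      exact ((hasDerivAt_rootProd hsne).mul (hh' s).hasDerivAt).deriv
    have n1 := rootProd_ne_zero hsne
    have n2 := hne s hsK
    simp only [one_div]
    rw [hd', he s]
    field_simp
  rw [heq, boxInt_add hc1 fun s hs => (hH s (hedge' s hs).1).continuousAt, hi1,
    boxInt_eq_zero hab hT fun s h1 h2 => hH s (hmemK s h1 h2), add_zero]
  congr 1
  rw [Multiset.map_const', Multiset.sum_replicate, nsmul_eq_mul, mul_one, Nat.cast_inj,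
    boxCount_eq_sum hf hord,
    ← Multiset.sum_count_eq_card (s := (finite_boxZeros hf hord a b T).toFinset) fun ρ hρ => ?_]
  · refine Finset.sum_congr rfl fun ρ hρ => ?_
    rw [Set.Finite.mem_toFinset] at hρ
    obtain ⟨-, h1, h2, h3⟩ := hρ
    rw [hcount ρ (hmemK ρ ⟨h1, h2⟩ (abs_le.1 h3))]
  · obtain ⟨a1, a2, a3⟩ := hZin ρ hρ
    rw [Set.Finite.mem_toFinset]
    exact ⟨hZ0 ρ hρ, a1.le, a2.le, a3.le⟩

theorem boxCount_mono (hf : Differentiable ℂ f) (hord : ∀ z, analyticOrderAt f z ≠ ⊤) {a b : ℝ}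
    {S T : ℝ} (h : S ≤ T) : boxCount f a b S ≤ boxCount f a b T := by
  rw [boxCount_eq_sum hf hord, boxCount_eq_sum hf hord]
  exact Finset.sum_le_sum_of_subset (Set.Finite.toFinset_subset_toFinset.2
    fun ρ ⟨h0, h1, h2, h3⟩ => ⟨h0, h1, h2, h3.trans h⟩)

/-- Between any two heights there is one that carries no zero. -/
theorem exists_clean (hf : Differentiable ℂ f) (hord : ∀ z, analyticOrderAt f z ≠ ⊤) (a b : ℝ)
    {S T : ℝ} (hST : S < T) :
    ∃ U, S < U ∧ U < T ∧ ∀ ρ, f ρ = 0 → a ≤ ρ.re → ρ.re ≤ b → |ρ.im| ≠ U := by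
  obtain ⟨U, ⟨h1, h2⟩, hU⟩ := ((Ioo_infinite hST).sdiff
    ((finite_boxZeros hf hord a b T).image fun ρ : ℂ => |ρ.im|)).nonempty
  exact ⟨U, h1, h2, fun ρ h0 ha hb e => hU ⟨ρ, ⟨h0, ha, hb, by rw [e]; exact h2.le⟩, e⟩⟩

end FA.SelbergZeroCount

end
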