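import Fermat.Agent.SelbergZeroCount.Edges
import Fermat.Agent.SelbergStructure.Class

/-!
# The count of the nontrivial zeros
-/

set_option autoImplicit false

noncomputable section

open Complex Filter Topology Set
open scoped Real
open FA.DegreeGap (HasFunctionalEquation degree)
open FA.SelbergStructure (rateD)
open FA.SelbergClass (HasEulerProduct)

namespace FA.SelbergZeroCount

variable {a : ℕ → ℂ} {m : ℕ} {E : ℂ → ℂ} {r : ℕ} {lam : Fin r → ℝ} {mu : Fin r → ℂ} {Q : ℝ}
  {omega : ℂ}

/-- The zeros in `0 ≤ re ≤ 1` up to height `T`, without `1`. -/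
def stripZeros (E : ℂ → ℂ) (T : ℝ) : Set ℂ :=
  {ρ | E ρ = 0 ∧ 0 ≤ ρ.re ∧ ρ.re ≤ 1 ∧ |ρ.im| ≤ T ∧ ρ ≠ 1}

/-- `N T`, with multiplicity. -/
def stripCount (E : ℂ → ℂ) (T : ℝ) : ℕ := ∑ᶠ ρ ∈ stripZeros E T, analyticOrderNatAt E ρ

theorem exists_ne_zero (h : HasFunctionalEquation a m E lam mu Q omega) (he : HasEulerProduct a) :
    E 2 ≠ 0 := by
  rw [h.eq_series 2 (by norm_num)]
  exact mul_ne_zero (pow_ne_zero m (by norm_num))
    (lSeries_ne_zero he (by norm_num) (h.summable 2 (by norm_num)))

theorem finite_stripZeros (h : HasFunctionalEquation a m E lam mu Q omega)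
    (he : HasEulerProduct a) (T : ℝ) : (stripZeros E T).Finite :=
  (finite_boxZeros h.differentiable (order_ne_top h.differentiable (exists_ne_zero h he)) 0 1
    T).subset fun _ ⟨h0, h1, h2, h3, _⟩ => ⟨h0, h1, h2, h3⟩

theorem stripCount_eq_sum (h : HasFunctionalEquation a m E lam mu Q omega)
    (he : HasEulerProduct a) (T : ℝ) :
    stripCount E T = ∑ ρ ∈ (finite_stripZeros h he T).toFinset, analyticOrderNatAt E ρ :=
  finsum_mem_eq_finite_toFinset_sum _ _

theorem stripCount_mono (h : HasFunctionalEquation a m E lam mu Q omega) (he : HasEulerProduct a)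
    {S T : ℝ} (hST : S ≤ T) : stripCount E S ≤ stripCount E T := by
  rw [stripCount_eq_sum h he, stripCount_eq_sum h he]
  exact Finset.sum_le_sum_of_subset (Set.Finite.toFinset_subset_toFinset.2
    fun ρ ⟨h0, h1, h2, h3, h4⟩ => ⟨h0, h1, h2, h3.trans hST, h4⟩)

/-- The zeros outside the strip are finitely many in each box. -/
theorem exists_box_compare (h : HasFunctionalEquation a m E lam mu Q omega)
    (he : HasEulerProduct a) {α β : ℝ} (hα : α ≤ 0) (hβ : 1 ≤ β)
    (hord : ∀ z, analyticOrderAt E z ≠ ⊤) :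
    ∃ D : ℕ, ∀ T : ℝ, stripCount E T ≤ boxCount E α β T ∧
      boxCount E α β T ≤ stripCount E T + D := by
  classical
  obtain ⟨M, hM⟩ : ∃ M, M = ∑ j, |(mu j).im| / lam j := ⟨_, rfl⟩
  have hM0 : 0 ≤ M := hM ▸ Finset.sum_nonneg fun j _ =>
    div_nonneg (abs_nonneg _) (h.lam_pos j).le
  refine ⟨boxCount E α β M, fun T => ?_⟩
  rw [stripCount_eq_sum h he, boxCount_eq_sum h.differentiable hord,
    boxCount_eq_sum h.differentiable hord α β M]
  have hsub : (finite_stripZeros h he T).toFinset ⊆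
      (finite_boxZeros h.differentiable hord α β T).toFinset :=
    Set.Finite.toFinset_subset_toFinset.2 fun ρ ⟨h0, h1, h2, h3, _⟩ =>
      ⟨h0, by linarith, by linarith, h3⟩
  refine ⟨Finset.sum_le_sum_of_subset hsub, ?_⟩
  rw [← Finset.sum_sdiff hsub, add_comm]
  refine Nat.add_le_add_left (Finset.sum_le_sum_of_subset fun ρ hρ => ?_) _
  rw [Finset.mem_sdiff, Set.Finite.mem_toFinset, Set.Finite.mem_toFinset] at hρ
  obtain ⟨⟨h0, h1, h2, h3⟩, hnot⟩ := hρ
  rw [Set.Finite.mem_toFinset]
  refine ⟨h0, h1, h2, ?_⟩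
  rcases lt_or_ge ρ.re 0 with hneg | hpos
  · obtain ⟨j, n, hjn⟩ := exists_pole_of_zero h he hneg h0
    have e := congrArg Complex.im hjn
    simp only [add_im, mul_im, ofReal_re, ofReal_im, zero_mul, add_zero, Complex.neg_im,
      Complex.natCast_im, neg_zero] at e
    have hj : |ρ.im| = |(mu j).im| / lam j := by
      rw [eq_div_iff (h.lam_pos j).ne', ← abs_of_pos (h.lam_pos j), ← abs_mul,
        show ρ.im * lam j = -(mu j).im by linarith, abs_neg]
    rw [hj, hM]
    exact Finset.single_le_sum (f := fun i => |(mu i).im| / lam i)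
      (fun i _ => div_nonneg (abs_nonneg _) (h.lam_pos i).le) (Finset.mem_univ j)
  rcases le_or_gt ρ.re 1 with hle | hgt
  · obtain rfl : ρ = 1 := by_contra fun hne => hnot ⟨h0, hpos, hle, h3, hne⟩
    simpa using hM0
  · rw [h.eq_series ρ hgt] at h0
    rcases mul_eq_zero.1 h0 with h4 | h4
    · rw [sub_eq_zero.1 (eq_zero_of_pow_eq_zero h4), one_re] at hgt
      exact absurd hgt (lt_irrefl _)
    · exact absurd h4 (lSeries_ne_zero he hgt (h.summable ρ hgt))

theorem xlogx_near {x y : ℝ} (hx : 1 ≤ x) (hxy : x ≤ y) (hy : y ≤ x + 1) :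
    0 ≤ y * Real.log y - x * Real.log x ∧ y * Real.log y - x * Real.log x ≤ Real.log y + 1 := by
  have hly : 0 ≤ Real.log y := Real.log_nonneg (hx.trans hxy)
  have hxl : Real.log x ≤ Real.log y := Real.log_le_log (by linarith) hxy
  have h1 : x * (Real.log y - Real.log x) ≤ y - x := by
    rw [← Real.log_div (by linarith) (by linarith)]
    refine (mul_le_mul_of_nonneg_left (Real.log_le_sub_one_of_pos (div_pos (by linarith)
      (by linarith))) (by linarith)).trans_eq ?_
    field_simp
  have h2 : 0 ≤ x * (Real.log y - Real.log x) := mul_nonneg (by linarith) (by linarith)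
  constructor <;> nlinarith

/-- The main term. -/
def mainTerm (lam : Fin r → ℝ) (Q T : ℝ) : ℝ :=
  (degree lam * (T * Real.log T) + rateD lam Q * T) / π

theorem mainTerm_near {x y T : ℝ} (hx : 1 ≤ x) (hxy : x ≤ y) (hy : y ≤ x + 1) (hyT : y ≤ T) :
    |mainTerm lam Q y - mainTerm lam Q x| ≤
      (|degree lam| + |rateD lam Q|) * (Real.log T + 1) := by
  obtain ⟨h1, h2⟩ := xlogx_near hx hxy hy
  have h3 : Real.log y ≤ Real.log T := Real.log_le_log (by linarith) hyT
  have h4 : 0 ≤ Real.log y := Real.log_nonneg (hx.trans hxy)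
  rw [mainTerm, mainTerm, ← sub_div, abs_div, abs_of_pos Real.pi_pos]
  refine (div_le_self (abs_nonneg _) (by linarith [Real.pi_gt_three])).trans ?_
  rw [show degree lam * (y * Real.log y) + rateD lam Q * y -
    (degree lam * (x * Real.log x) + rateD lam Q * x) =
      degree lam * (y * Real.log y - x * Real.log x) + rateD lam Q * (y - x) by ring, add_mul]
  refine (abs_add_le _ _).trans (add_le_add ?_ ?_) <;>
    rw [abs_mul] <;> refine mul_le_mul_of_nonneg_left ?_ (abs_nonneg _) <;>
    rw [abs_le] <;> constructor <;> linarith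

theorem log_succ_le {T : ℝ} (hT : 2 ≤ T) : Real.log (T + 4) ≤ 3 * Real.log T ∧
    1 ≤ 2 * Real.log T := by
  constructor
  · rw [show (3 : ℝ) * Real.log T = Real.log (T ^ 3) by rw [Real.log_pow]; norm_num]
    exact Real.log_le_log (by linarith) (by
      nlinarith [mul_nonneg (mul_nonneg (sub_nonneg.2 hT) (show (0 : ℝ) ≤ T + 2 by linarith))
        (show (0 : ℝ) ≤ T by linarith)])
  · linarith [Real.log_le_log two_pos hT, Real.log_two_gt_d9]

/-- **Riemann and von Mangoldt.** -/
theorem exists_stripCount (h : HasFunctionalEquation a m E lam mu Q omega)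
    (he : HasEulerProduct a) :
    ∃ C : ℝ, ∀ T : ℝ, 2 ≤ T → |(stripCount E T : ℝ) - mainTerm lam Q T| ≤ C * Real.log T := by
  obtain ⟨α, β, hα, hβ, hord, C₀, hC₀⟩ := exists_boxCount h he
  obtain ⟨D, hD⟩ := exists_box_compare h he hα.le hβ.le hord
  set P := |degree lam| + |rateD lam Q|
  set C := 3 * |C₀| + 2 * D + 5 * P
  have hclean : ∀ U : ℝ, 2 ≤ U → (∀ ρ, E ρ = 0 → α ≤ ρ.re → ρ.re ≤ β → |ρ.im| ≠ U) →
      |(stripCount E U : ℝ) - mainTerm lam Q U| ≤ |C₀| * Real.log (U + 3) + D := fun U hU hcl => by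
    have h1 := abs_le.1 (hC₀ U hU hcl)
    have h2 := mul_le_mul_of_nonneg_right (le_abs_self C₀)
      (Real.log_nonneg (show (1 : ℝ) ≤ U + 3 by linarith))
    obtain ⟨h3, h4⟩ := hD U
    have h3' : (stripCount E U : ℝ) ≤ boxCount E α β U := by exact_mod_cast h3
    have h4' : (boxCount E α β U : ℝ) ≤ stripCount E U + D := by exact_mod_cast h4
    rw [mainTerm, abs_le]
    constructor <;> linarith [h1.1, h1.2, Nat.cast_nonneg (α := ℝ) D]
  have hup : ∀ T : ℝ, 2 ≤ T → (stripCount E T : ℝ) ≤ mainTerm lam Q T + C * Real.log T := by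
    intro T hT
    obtain ⟨U, hU1, hU2, hU⟩ :=
      exists_clean h.differentiable hord α β (show T < T + 1 by linarith)
    obtain ⟨h4, h5⟩ := log_succ_le hT
    have h1 := (abs_le.1 (hclean U (by linarith) hU)).2
    have h2 := abs_le.1 (mainTerm_near (lam := lam) (Q := Q) (show 1 ≤ T by linarith) hU1.le hU2.le
      (show U ≤ T + 4 by linarith))
    have h3 : (stripCount E T : ℝ) ≤ stripCount E U :=
      Nat.cast_le.2 (stripCount_mono h he hU1.le)
    have h6 : |C₀| * Real.log (U + 3) ≤ |C₀| * (3 * Real.log T) := mul_le_mul_of_nonneg_left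
      ((Real.log_le_log (by linarith) (by linarith)).trans h4) (abs_nonneg _)
    have h7 : P * (Real.log (T + 4) + 1) ≤ P * (5 * Real.log T) :=
      mul_le_mul_of_nonneg_left (by linarith) (by positivity)
    have h8 : (D : ℝ) ≤ D * (2 * Real.log T) := le_mul_of_one_le_right (Nat.cast_nonneg D) h5
    have h9 : 0 ≤ P * Real.log T := mul_nonneg (by positivity) (by linarith)
    simp only [C]
    nlinarith [h2.2]
  obtain ⟨B, hB⟩ := isCompact_Icc.exists_bound_of_continuousOn (s := Icc (2 : ℝ) 3)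
    (f := fun T => mainTerm lam Q T) (by
      unfold mainTerm
      refine ContinuousOn.div_const ?_ _
      exact (continuousOn_const.mul (continuousOn_id.mul (Real.continuousOn_log.mono fun x hx => by
        simp only [mem_compl_iff, mem_singleton_iff]
        linarith [hx.1]))).add (continuousOn_const.mul continuousOn_id))
  have hdown : ∀ T : ℝ, 2 ≤ T →
      mainTerm lam Q T - (C + 2 * P + 2 * |B|) * Real.log T ≤ stripCount E T := by
    intro T hT
    obtain ⟨h4, h5⟩ := log_succ_le hT
    have hCP : 0 ≤ (C + 2 * P + 2 * |B|) * Real.log T :=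
      mul_nonneg (by simp only [C, P]; positivity) (by linarith)
    rcases le_or_gt T 3 with h3T | h3T
    · have hb := (Real.norm_eq_abs _).symm.trans_le (hB T ⟨hT, h3T⟩)
      have : |B| ≤ |B| * (2 * Real.log T) := le_mul_of_one_le_right (abs_nonneg B) h5
      have hC0 : 0 ≤ (C + 2 * P) * Real.log T :=
        mul_nonneg (by simp only [C, P]; positivity) (by linarith)
      nlinarith [abs_le.1 hb, le_abs_self B, Nat.cast_nonneg (α := ℝ) (stripCount E T)]
    obtain ⟨U, hU1, hU2, hU⟩ :=
      exists_clean h.differentiable hord α β (show T - 1 < T by linarith)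
    have h1 := (abs_le.1 (hclean U (by linarith) hU)).1
    have h2 := abs_le.1 (mainTerm_near (lam := lam) (Q := Q) (show 1 ≤ U by linarith) hU2.le
      (show T ≤ U + 1 by linarith) (show T ≤ T + 4 by linarith))
    have h3 : (stripCount E U : ℝ) ≤ stripCount E T :=
      Nat.cast_le.2 (stripCount_mono h he hU2.le)
    have h6 : |C₀| * Real.log (U + 3) ≤ |C₀| * (3 * Real.log T) := mul_le_mul_of_nonneg_left
      ((Real.log_le_log (by linarith) (by linarith)).trans h4) (abs_nonneg _)
    have h7 : P * (Real.log (T + 4) + 1) ≤ P * (5 * Real.log T) :=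
      mul_le_mul_of_nonneg_left (by linarith) (by positivity)
    have h8 : (D : ℝ) ≤ D * (2 * Real.log T) := le_mul_of_one_le_right (Nat.cast_nonneg D) h5
    have h9 : 0 ≤ P * Real.log T := mul_nonneg (by positivity) (by linarith)
    have h10 : 0 ≤ |B| * Real.log T := mul_nonneg (abs_nonneg _) (by linarith)
    simp only [C]
    nlinarith [h2.2]
  refine ⟨C + 2 * P + 2 * |B|, fun T hT => abs_le.2 ⟨by linarith [hdown T hT], ?_⟩⟩
  have hl : 0 ≤ Real.log T := Real.log_nonneg (by linarith)
  have : 0 ≤ (2 * P + 2 * |B|) * Real.log T := mul_nonneg (by positivity) hl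
  nlinarith [hup T hT]

end FA.SelbergZeroCount

end
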