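import Fermat.Agent.SelbergZeroCount.Horizontal
import Fermat.Agent.SelbergZeroCount.ArgPrinciple

/-!
# The count in a wide box
-/

set_option autoImplicit false

noncomputable section

open Complex Filter Topology Set MeasureTheory
open scoped Real ComplexConjugate
open FA.DegreeGap (HasFunctionalEquation pt pt_re pt_im degree)
open FA.DegreeOne (reflRatio)
open FA.SelbergStructure (rateD)
open FA.SelbergClass (HasEulerProduct)
open FA.LevinsonThird (continuousAt_logDeriv abs_arg_edge_le)
open FA.ExplicitFormula (boxInt)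
open FA.SelbergMultiplicity (differentiableAt_reflRatio)

namespace FA.SelbergZeroCount

variable {a : ℕ → ℂ} {m : ℕ} {E : ℂ → ℂ} {r : ℕ} {lam : Fin r → ℝ} {mu : Fin r → ℂ} {Q : ℝ}
  {omega : ℂ}

theorem logDeriv_pow_mul {f g : ℂ → ℂ} {s : ℂ} (hg : DifferentiableAt ℂ g s) (h0 : g s ≠ 0)
    (hs : s ≠ 1) (hf : f =ᶠ[𝓝 s] fun z => (z - 1) ^ m * g z) :
    deriv f s / f s = m * (s - 1)⁻¹ + deriv g s / g s := by
  have hs' : s - 1 ≠ 0 := sub_ne_zero.2 hs
  have hd : HasDerivAt (fun z => (z - 1) ^ m * g z)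
      ((m : ℂ) * (s - 1) ^ (m - 1) * 1 * g s + (s - 1) ^ m * deriv g s) s :=
    (((hasDerivAt_id' s).sub_const 1).pow m).mul hg.hasDerivAt
  rw [hf.deriv_eq, hd.deriv, hf.eq_of_nhds]
  rcases m with _ | k
  · simp
  · simp only [Nat.succ_sub_one, pow_succ]
    field_simp

theorem differentiableAt_lSeries (h : HasFunctionalEquation a m E lam mu Q omega) {s : ℂ}
    (hs : 1 < s.re) : DifferentiableAt ℂ (LSeries a) s :=
  ((LSeries_analyticOnNhd a) s ((LSeries.abscissaOfAbsConv_le_of_forall_lt_LSeriesSummable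
    (x := 1) fun y hy => h.summable y (by simpa using hy)).trans_lt
      (EReal.coe_lt_coe_iff.2 hs))).differentiableAt

theorem abs_arg_linear_le {σ : ℝ} (hσ : σ ≠ 1) (a' b' : ℝ) :
    |∫ v in a'..b', ((pt σ v - 1)⁻¹).re| ≤ 2 * π := by
  rcases lt_or_gt_of_ne hσ with h1 | h1
  · have := abs_arg_edge_le (f := fun z => 1 - z) isOpen_univ
      (by fun_prop : Differentiable ℂ fun z : ℂ => 1 - z).differentiableOn (σ := σ) (a := a')
      (b := b') fun v _ => ⟨mem_univ _, by simpa using h1⟩
    refine le_of_eq_of_le ?_ this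
    congr 1
    refine intervalIntegral.integral_congr fun v _ => ?_
    rw [deriv_const_sub, deriv_id'', pt, ← neg_sub, inv_neg, div_eq_mul_inv, neg_one_mul]
  · have := abs_arg_edge_le (f := fun z => z - 1) isOpen_univ
      (by fun_prop : Differentiable ℂ fun z : ℂ => z - 1).differentiableOn (σ := σ) (a := a')
      (b := b') fun v _ => ⟨mem_univ _, by simpa using h1⟩
    refine le_of_eq_of_le ?_ this
    congr 1
    refine intervalIntegral.integral_congr fun v _ => ?_
    rw [deriv_sub_const, deriv_id'', pt, one_div]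

theorem intervalIntegrable_logDeriv {f : ℂ → ℂ} {U : Set ℂ} (hU : IsOpen U)
    (hf : DifferentiableOn ℂ f U) {σ : ℝ} (hne : ∀ v : ℝ, pt σ v ∈ U ∧ f (pt σ v) ≠ 0) (a' b' : ℝ) :
    IntervalIntegrable (fun v => (deriv f (pt σ v) / f (pt σ v)).re) volume a' b' :=
  (Complex.continuous_re.comp (continuous_iff_continuousAt.2 fun v => ContinuousAt.comp'
    (g := fun z => deriv f z / f z) (continuousAt_logDeriv hU hf (hne v).1 (hne v).2)
    (FA.DegreeGap.continuous_pt σ).continuousAt)).intervalIntegrable a' b'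

/-- **The right edge.** -/
theorem abs_right_edge_le (h : HasFunctionalEquation a m E lam mu Q omega) {β : ℝ} (hβ : 1 < β)
    (hlow : ∀ t : ℝ, 1 / 2 ≤ (LSeries a (pt β t)).re) (T : ℝ) :
    |∫ v in (-T)..T, (deriv E (pt β v) / E (pt β v)).re| ≤ (m + 1) * (2 * π) := by
  have hU : IsOpen {z : ℂ | 1 < z.re} := isOpen_lt continuous_const Complex.continuous_re
  have hdL : DifferentiableOn ℂ (LSeries a) {z : ℂ | 1 < z.re} := fun z hz =>
    (differentiableAt_lSeries h hz).differentiableWithinAt
  have hmem : ∀ v : ℝ, pt β v ∈ {z : ℂ | 1 < z.re} ∧ LSeries a (pt β v) ≠ 0 := fun v =>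
    ⟨by simpa [pt] using hβ, fun e => by
      have := hlow v
      rw [e, zero_re] at this
      linarith⟩
  have e : ∀ v : ℝ, (deriv E (pt β v) / E (pt β v)).re =
      m * ((pt β v - 1)⁻¹).re + (deriv (LSeries a) (pt β v) / LSeries a (pt β v)).re := fun v => by
    have hv : 1 < (pt β v).re := by rwa [pt_re]
    rw [logDeriv_pow_mul (differentiableAt_lSeries h hv) (hmem v).2
      (fun e => by rw [e, one_re] at hv; exact lt_irrefl _ hv)
      (eventually_of_mem (hU.mem_nhds hv) fun z hz => h.eq_series z hz), add_re,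
      ← ofReal_natCast, re_ofReal_mul]
  have hi2 := intervalIntegrable_logDeriv hU hdL hmem (-T) T
  have hi1 : IntervalIntegrable (fun v : ℝ => (m : ℝ) * ((pt β v - 1)⁻¹).re) volume (-T) T :=
    (continuous_const.mul (Complex.continuous_re.comp (((FA.DegreeGap.continuous_pt β).sub
      continuous_const).inv₀ fun v e => by
        have := congrArg Complex.re e
        simp [pt] at this
        linarith))).intervalIntegrable _ _
  simp only [e]
  rw [intervalIntegral.integral_add hi1 hi2, intervalIntegral.integral_const_mul]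
  refine (abs_add_le _ _).trans ?_
  rw [abs_mul, Nat.abs_cast, add_one_mul]
  exact add_le_add (mul_le_mul_of_nonneg_left (abs_arg_linear_le hβ.ne' _ _) (Nat.cast_nonneg m))
    (abs_arg_edge_le hU hdL fun v _ =>
      ⟨(hmem v).1, lt_of_lt_of_le (by norm_num) (hlow v)⟩)

/-- **The left edge.** -/
theorem exists_left_edge (h : HasFunctionalEquation a m E lam mu Q omega) {α : ℝ} (hα : α < 0)
    (hgood : IsGoodLine lam mu α) (hlow : ∀ t : ℝ, 1 / 2 ≤ (LSeries a (pt (1 - α) t)).re) :
    ∃ C : ℝ, ∀ T : ℝ, 2 ≤ T → |(∫ v in (-T)..T, (deriv E (pt α v) / E (pt α v)).re) +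
      2 * (degree lam * (T * Real.log T) + rateD lam Q * T)| ≤ C * Real.log T := by
  obtain ⟨C, hC⟩ := exists_arg_line h.lam_pos h.mu_re h.Q_pos (show α < 1 by linarith) hgood
  have hU : IsOpen {z : ℂ | z.re < 0} := isOpen_lt Complex.continuous_re continuous_const
  set Lc : ℂ → ℂ := fun z => conj (LSeries a (1 - conj z))
  have hdL : DifferentiableOn ℂ Lc {z : ℂ | z.re < 0} := fun z hz => by
    have hw : 1 < (1 - conj z).re := by
      have : z.re < 0 := hz
      simp
      linarith
    have h1 : DifferentiableAt ℂ (fun w => LSeries a (1 - w)) (conj z) :=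
      (differentiableAt_lSeries h hw).fun_comp' (conj z) (differentiableAt_id.const_sub _)
    have h2 := h1.conj_conj
    rw [Complex.conj_conj] at h2
    exact h2.differentiableWithinAt
  have hmem : ∀ v : ℝ, pt α v ∈ {z : ℂ | z.re < 0} ∧ 0 < (Lc (pt α v)).re := fun v => by
    refine ⟨by simpa [pt] using hα, ?_⟩
    simp only [Lc, FA.DegreeGap.one_sub_conj_pt, Complex.conj_re]
    exact lt_of_lt_of_le (by norm_num) (hlow v)
  have hLne : ∀ v : ℝ, Lc (pt α v) ≠ 0 := fun v e => by
    have := (hmem v).2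
    rw [e, zero_re] at this
    exact lt_irrefl _ this
  have hω : omega ≠ 0 := norm_ne_zero_iff.1 (by rw [h.norm_omega]; exact one_ne_zero)
  have hρ := fun v => reflRatio_line_ne_zero (Q := Q) h.lam_pos h.mu_re h.Q_pos
    (show α < 1 by linarith) hgood v
  have e : ∀ v : ℝ, (deriv E (pt α v) / E (pt α v)).re = m * ((pt α v - 1)⁻¹).re +
      (ratioLog lam mu Q (pt α v)).re + (deriv Lc (pt α v) / Lc (pt α v)).re := fun v => by
    have hv : (pt α v).re < 0 := by rwa [pt_re]
    have hd1 := (differentiableAt_reflRatio h.lam_pos h.mu_re h.Q_pos (s := pt α v)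
      (by linarith)).hasDerivAt
    have hd2 := (hdL.differentiableAt (hU.mem_nhds hv)).hasDerivAt
    have hg := (hd1.const_mul omega).fun_mul hd2
    rw [logDeriv_pow_mul hg.differentiableAt (mul_ne_zero (mul_ne_zero hω (hρ v)) (hLne v))
      (fun e => by rw [e, one_re] at hv; linarith)
      (eventually_of_mem (hU.mem_nhds hv) fun z hz => eq_left h hz), hg.deriv, add_re,
      ← ofReal_natCast, re_ofReal_mul, add_assoc]
    congr 1
    rw [← add_re, ratioLog]
    congr 1
    have := hρ v
    have := hLne v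
    field_simp
  refine ⟨C + (m + 1) * (2 * π) / Real.log 2, fun T hT => ?_⟩
  have hi1 : IntervalIntegrable (fun v : ℝ => (m : ℝ) * ((pt α v - 1)⁻¹).re) volume (-T) T :=
    (continuous_const.mul (Complex.continuous_re.comp (((FA.DegreeGap.continuous_pt α).sub
      continuous_const).inv₀ fun v e => by
        have := congrArg Complex.re e
        simp [pt] at this
        linarith))).intervalIntegrable _ _
  have hi2 : IntervalIntegrable (fun v => (ratioLog lam mu Q (pt α v)).re) volume (-T) T :=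
    (Complex.continuous_re.comp (continuous_ratioLog_line h.lam_pos h.mu_re h.Q_pos
      (show α < 1 by linarith) hgood)).intervalIntegrable _ _
  have hi3 := intervalIntegrable_logDeriv hU hdL (fun v => ⟨(hmem v).1, hLne v⟩) (-T) T
  simp only [e]
  rw [intervalIntegral.integral_add (hi1.add hi2) hi3, intervalIntegral.integral_add hi1 hi2,
    intervalIntegral.integral_const_mul]
  have h1 := mul_le_mul_of_nonneg_left (abs_arg_linear_le (show α ≠ 1 by linarith) (-T) T)
    (Nat.cast_nonneg (α := ℝ) m)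
  rw [← Nat.abs_cast (R := ℝ) m, ← abs_mul, Nat.abs_cast] at h1
  have h2 := abs_arg_edge_le hU hdL (σ := α) (a := -T) (b := T) fun v _ => hmem v
  have h3 := hC T hT
  have hl : (m + 1) * (2 * π) ≤ (m + 1) * (2 * π) / Real.log 2 * Real.log T := by
    rw [div_mul_eq_mul_div, le_div_iff₀ (Real.log_pos one_lt_two)]
    exact mul_le_mul_of_nonneg_left (Real.log_le_log two_pos hT) (by positivity)
  simp only [pt] at h1 h2 h3 ⊢
  rw [abs_le] at h1 h2 h3 ⊢
  constructor <;> linarith [add_mul C ((m + 1) * (2 * π) / Real.log 2) (Real.log T)]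

/-- The count in a box, at a height without zeros. -/
theorem exists_boxCount (h : HasFunctionalEquation a m E lam mu Q omega) (he : HasEulerProduct a) :
    ∃ α β : ℝ, α < 0 ∧ 1 < β ∧ (∀ z, analyticOrderAt E z ≠ ⊤) ∧ ∃ C : ℝ, ∀ T : ℝ, 2 ≤ T →
      (∀ ρ, E ρ = 0 → α ≤ ρ.re → ρ.re ≤ β → |ρ.im| ≠ T) →
      |(boxCount E α β T : ℝ) - (degree lam * (T * Real.log T) + rateD lam Q * T) / π| ≤
        C * Real.log (T + 3) := by
  obtain ⟨β, hβ, hlow⟩ := exists_right_lower h he.map_one
  obtain ⟨α, hα, hgood⟩ := exists_goodLine h.lam_pos mu (1 - β)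
  have hα0 : α < 0 := by linarith
  have hlowβ : ∀ t : ℝ, 1 / 2 ≤ (LSeries a (pt β t)).re := fun t => hlow _ (by rw [pt_re])
  have hlowα : ∀ t : ℝ, 1 / 2 ≤ (LSeries a (pt (1 - α) t)).re := fun t =>
    hlow _ (by rw [pt_re]; linarith)
  have hright : ∀ t : ℝ, E (pt β t) ≠ 0 := fun t => by
    have ht : 1 < (pt β t).re := by rw [pt_re]; linarith
    rw [h.eq_series _ ht]
    exact mul_ne_zero (pow_ne_zero m (sub_ne_zero.2 fun e => by
      rw [e, one_re] at ht; exact lt_irrefl _ ht)) (lSeries_ne_zero he ht (h.summable _ ht))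
  have hord := order_ne_top h.differentiable (hright 0)
  obtain ⟨K, hK, hhor⟩ := exists_horizontal h hα0 hβ hlowβ
  obtain ⟨C, hC⟩ := exists_left_edge h hα0 hgood hlowα
  refine ⟨α, β, hα0, by linarith, hord,
    |C| + 2 * K + (m + 1) * (2 * π), fun T hT hclean => ?_⟩
  have hint : ∀ ρ, E ρ = 0 → α ≤ ρ.re → ρ.re ≤ β → |ρ.im| ≤ T →
      α < ρ.re ∧ ρ.re < β ∧ |ρ.im| < T := fun ρ h0 h1 h2 h3 => by
    refine ⟨lt_of_le_of_ne h1 fun e => ?_, lt_of_le_of_ne h2 fun e => ?_,
      lt_of_le_of_ne h3 (hclean ρ h0 h1 h2)⟩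
    · obtain ⟨j, n, hjn⟩ := exists_pole_of_zero h he (s := ρ) (by linarith) h0
      refine hgood j n ?_
      have := congrArg Complex.re hjn
      simpa [e] using this
    · refine hright ρ.im ?_
      rwa [show pt β ρ.im = ρ by apply Complex.ext <;> simp [pt, e]]
  have hbox := congrArg Complex.im
    (boxInt_logDeriv_eq h.differentiable hord (show α ≤ β by linarith) (by linarith) hint)
  have hne : ∀ (t : ℝ), |t| = T → ∀ u ∈ Icc α β, E ((u : ℂ) + t * I) ≠ 0 := fun t ht u hu h0 =>
    hclean _ h0 (by simpa using hu.1) (by simpa using hu.2) (by simpa using ht)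
  have hT0 : 0 ≤ T := by linarith
  have h1 := hhor T (hne T (abs_of_nonneg hT0))
  have h2 := hhor (-T) (hne (-T) (by rw [abs_neg, abs_of_nonneg hT0]))
  rw [abs_of_nonneg hT0] at h1
  rw [abs_neg, abs_of_nonneg hT0] at h2
  have hv1 := abs_right_edge_le h (show 1 < β by linarith) hlowβ T
  have hv2 := hC T hT
  have hcont : ∀ σ : ℝ, (∀ v : ℝ, E (pt σ v) ≠ 0) →
      IntervalIntegrable (fun v : ℝ => deriv E (pt σ v) / E (pt σ v)) volume (-T) T := fun σ hσ =>
    (continuous_iff_continuousAt.2 fun v => ContinuousAt.comp' (g := fun z => deriv E z / E z)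
      (continuousAt_logDeriv isOpen_univ h.differentiable.differentiableOn (mem_univ _) (hσ v))
      (FA.DegreeGap.continuous_pt σ).continuousAt).intervalIntegrable _ _
  have hleft : ∀ v : ℝ, E (pt α v) ≠ 0 := fun v h0 => by
    obtain ⟨j, n, hjn⟩ := exists_pole_of_zero h he (s := pt α v) (by rwa [pt_re]) h0
    refine hgood j n ?_
    have := congrArg Complex.re hjn
    simpa [pt] using this
  rw [← (FA.LevinsonThird.integral_re_im (hcont β hright)).1] at hv1
  rw [← (FA.LevinsonThird.integral_re_im (hcont α hleft)).1] at hv2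
  simp only [pt] at hv1 hv2
  simp only [boxInt, add_im, sub_im, mul_im, I_re, I_im, zero_mul, one_mul, zero_add] at hbox
  simp only [mul_re, re_ofNat, im_ofNat, ofReal_re, ofReal_im, natCast_re, natCast_im, mul_im,
    I_re, I_im, mul_zero, mul_one, zero_mul, sub_zero, add_zero, zero_add] at hbox
  have hl : 1 ≤ Real.log (T + 3) := by
    rw [Real.le_log_iff_exp_le (by linarith)]
    linarith [Real.exp_one_lt_d9]
  have hlT : Real.log T ≤ Real.log (T + 3) := Real.log_le_log (by linarith) (by linarith)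
  have h3 : C * Real.log T ≤ |C| * Real.log (T + 3) :=
    mul_le_mul (le_abs_self C) hlT (Real.log_nonneg (by linarith)) (abs_nonneg C)
  have h4 : (m + 1) * (2 * π) ≤ (m + 1) * (2 * π) * Real.log (T + 3) :=
    le_mul_of_one_le_right (by positivity) hl
  set M := degree lam * (T * Real.log T) + rateD lam Q * T
  have hb : |2 * π * ((boxCount E α β T : ℝ) - M / π)| ≤
      (|C| + 2 * K + (m + 1) * (2 * π)) * Real.log (T + 3) := by
    rw [show 2 * π * ((boxCount E α β T : ℝ) - M / π) =
      2 * π * (boxCount E α β T : ℝ) - 2 * M by field_simp]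
    rw [abs_le] at h1 h2 hv1 hv2 ⊢
    constructor <;> linarith
  rw [abs_mul, abs_of_pos (by positivity : (0 : ℝ) < 2 * π)] at hb
  exact (le_mul_of_one_le_left (abs_nonneg _) (by linarith [Real.pi_gt_three])).trans hb

end FA.SelbergZeroCount

end
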