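import Fermat.Agent.SelbergMultiplicity.Quotient
import Fermat.Agent.SelbergStructure.Invariants
import Fermat.Agent.SelbergClass.Euler
import Mathlib.Analysis.SpecialFunctions.Log.Summable

/-!
# The half planes without nontrivial zeros
-/

set_option autoImplicit false

noncomputable section

open Complex Filter Topology
open scoped Real ComplexConjugate
open FA.DegreeGap (HasFunctionalEquation)
open FA.DegreeOne (reflRatio conj_inv_eq)
open FA.SelbergClass (HasEulerProduct)
open FA.SelbergMultiplicity (term_prime_pow norm_prime_cpow_lt)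

namespace FA.SelbergZeroCount

variable {a : ℕ → ℂ} {m : ℕ} {E : ℂ → ℂ} {r : ℕ} {lam : Fin r → ℝ} {mu : Fin r → ℂ} {Q : ℝ}
  {omega : ℂ}

/-- **No zeros where the series converges absolutely.** -/
theorem lSeries_ne_zero (he : HasEulerProduct a) {s : ℂ} (hs : 1 < s.re)
    (hsum : LSeriesSummable a s) : LSeries a s ≠ 0 := by
  obtain ⟨θ, hθ, hloc⟩ := he.local_factors
  set f : ℕ → ℂ := LSeries.term a s
  have hf1 : f 1 = 1 := by simp [f, LSeries.term_of_ne_zero, he.map_one]
  have hmul : ∀ {k n : ℕ}, Nat.Coprime k n → f (k * n) = f k * f n := fun {k n} hkn => by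
    rcases eq_or_ne k 0 with rfl | hk
    · simp [f]
    rcases eq_or_ne n 0 with rfl | hn
    · simp [f]
    simp only [f, LSeries.term_of_ne_zero (mul_ne_zero hk hn), LSeries.term_of_ne_zero hk,
      LSeries.term_of_ne_zero hn, he.map_mul k n hkn, Nat.cast_mul, natCast_mul_natCast_cpow]
    rw [mul_div_mul_comm]
  have hnorm : Summable fun n => ‖f n‖ := hsum.norm
  have hprod := EulerProduct.eulerProduct_tprod hf1 hmul hnorm (LSeries.term_zero a s)
  have hinj : Function.Injective fun pk : Nat.Primes × ℕ => (pk.1 : ℕ) ^ (pk.2 + 1) := by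
    intro x y hxy
    obtain ⟨e1, e2⟩ := x.1.2.pow_inj' y.1.2 (Nat.succ_ne_zero _) (Nat.succ_ne_zero _) hxy
    exact Prod.ext (Subtype.ext e1) (Nat.succ_injective e2)
  have h2 := hnorm.comp_injective hinj
  have hu : Summable fun p : Nat.Primes => ‖∑' k, f ((p : ℕ) ^ (k + 1))‖ :=
    (h2.prod).of_nonneg_of_le (fun p => norm_nonneg _) fun p =>
      norm_tsum_le_tsum_norm (h2.prod_factor p)
  have hfac : ∀ p : Nat.Primes, ∑' k, f ((p : ℕ) ^ k) = 1 + ∑' k, f ((p : ℕ) ^ (k + 1)) :=
    fun p => by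
      have hs1 : Summable fun k => f ((p : ℕ) ^ k) :=
        hnorm.of_norm.comp_injective fun i j hij => Nat.pow_right_injective p.2.two_le hij
      rw [hs1.tsum_eq_zero_add, pow_zero, hf1]
  have hne : ∀ p : Nat.Primes, 1 + ∑' k, f ((p : ℕ) ^ (k + 1)) ≠ 0 := fun p => by
    rw [← hfac]
    obtain ⟨u, hu, hsu⟩ := hloc p p.2 ((p : ℂ) ^ (-s)) (norm_prime_cpow_lt p.2 (by linarith))
    simp only [f, term_prime_pow p.2]
    rwa [hsu.tsum_eq]
  rw [LSeries, ← hprod, tprod_congr hfac]
  exact tprod_one_add_ne_zero_of_summable hne hu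

/-- Far to the right the series is near `1`. -/
theorem exists_right_lower (h : HasFunctionalEquation a m E lam mu Q omega) (h1 : a 1 = 1) :
    ∃ σ₀ : ℝ, 2 ≤ σ₀ ∧ ∀ s : ℂ, σ₀ ≤ s.re → 1 / 2 ≤ (LSeries a s).re := by
  have hS2 := (h.summable ((2 : ℝ) : ℂ) (by norm_num)).norm
  set S := ∑' n, ‖LSeries.term a ((2 : ℝ) : ℂ) n‖
  have hlim : Tendsto (fun σ : ℝ => S * (2 : ℝ) ^ (-(σ - 2))) atTop (𝓝 0) := by
    have h0 : Tendsto (fun σ : ℝ => Real.exp (-(Real.log 2 * (σ - 2)))) atTop (𝓝 0) :=
      Real.tendsto_exp_neg_atTop_nhds_zero.comp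
        ((tendsto_atTop_add_const_right _ _ tendsto_id).const_mul_atTop (Real.log_pos one_lt_two))
    have h1 := h0.const_mul S
    rw [mul_zero] at h1
    refine h1.congr fun σ => ?_
    rw [Real.rpow_def_of_pos two_pos]
    ring_nf
  obtain ⟨σ₀, hσ₀⟩ := eventually_atTop.1 ((hlim.eventually
    (Iic_mem_nhds (show (0 : ℝ) < 1 / 2 by norm_num))).and (eventually_ge_atTop (2 : ℝ)))
  refine ⟨σ₀, (hσ₀ σ₀ le_rfl).2, fun s hs => ?_⟩
  obtain ⟨hb, hs2⟩ := hσ₀ s.re hs
  have hone : HasSum (fun n => if n = 1 then (1 : ℂ) else 0) 1 := hasSum_ite_eq 1 1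
  have hle : ‖LSeries a s - 1‖ ≤ S * (2 : ℝ) ^ (-(s.re - 2)) := by
    refine ((h.summable s (by linarith)).hasSum.sub hone).norm_le_of_bounded
      (hS2.hasSum.mul_right _) fun n => ?_
    rcases eq_or_ne n 1 with rfl | hn1
    · simp only [if_pos, LSeries.term_of_ne_zero one_ne_zero, h1, Nat.cast_one, one_cpow, div_one,
        sub_self, norm_zero]
      positivity
    rcases eq_or_ne n 0 with rfl | hn0
    · simp
    have hn : (2 : ℝ) ≤ n := by exact_mod_cast (show 2 ≤ n by omega)
    rw [if_neg hn1, sub_zero, LSeries.norm_term_eq, LSeries.norm_term_eq, if_neg hn0, if_neg hn0,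
      ofReal_re, show s.re = 2 + (s.re - 2) by ring, Real.rpow_add (by linarith),
      show (2 : ℝ) + (s.re - 2) - 2 = s.re - 2 by ring, Real.rpow_neg two_pos.le, ← div_div,
      ← div_eq_mul_inv]
    exact div_le_div_of_nonneg_left (by positivity) (by positivity)
      (Real.rpow_le_rpow two_pos.le hn (by linarith))
  have h3 := abs_le.1 ((Complex.abs_re_le_norm _).trans (hle.trans hb))
  rw [sub_re, one_re] at h3
  linarith [h3.1]

/-- **To the left of `0` only the poles of the Gamma factors give zeros.** -/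
theorem exists_pole_of_zero (h : HasFunctionalEquation a m E lam mu Q omega)
    (he : HasEulerProduct a) {s : ℂ} (hs : s.re < 0) (h0 : E s = 0) :
    ∃ j, ∃ n : ℕ, (lam j : ℂ) * s + mu j = -(n : ℂ) := by
  by_contra hno
  push Not at hno
  have hw : 1 < (1 - conj s).re := by simp; linarith
  rw [h.functional_equation s hs, map_mul] at h0
  have hR : reflRatio lam mu Q s ≠ 0 := by
    refine mul_ne_zero (cpow_ne_zero_iff.2 (Or.inl (ofReal_ne_zero.2 h.Q_pos.ne')))
      (Finset.prod_ne_zero_iff.2 fun j _ => mul_ne_zero ((map_ne_zero _).2 ?_)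
        (inv_ne_zero (Complex.Gamma_ne_zero (hno j))))
    refine Complex.Gamma_ne_zero_of_re_pos ?_
    simp only [add_re, re_ofReal_mul, sub_re, one_re, Complex.conj_re]
    have := mul_pos (h.lam_pos j) (show 0 < 1 - s.re by linarith)
    linarith [h.mu_re j]
  rw [← conj_inv_eq h.Q_pos] at hR
  rcases mul_eq_zero.1 h0 with h1 | h1
  · exact absurd (sub_eq_zero.1 (eq_zero_of_pow_eq_zero h1)) (fun e => by
      rw [e, one_re] at hs
      linarith)
  have hω : omega ≠ 0 := norm_ne_zero_iff.1 (by rw [h.norm_omega]; exact one_ne_zero)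
  have hL : conj (LSeries a (1 - conj s)) ≠ 0 :=
    (map_ne_zero _).2 (lSeries_ne_zero he hw (h.summable _ hw))
  exact (mul_ne_zero (mul_ne_zero hω hL) hR) (by linear_combination h1)

/-- The continued series has the same multiplicities away from `1`. -/
theorem order_div_pow (h : HasFunctionalEquation a m E lam mu Q omega) {z : ℂ} (hz : z ≠ 1) :
    analyticOrderNatAt (fun s => E s / (s - 1) ^ m) z = analyticOrderNatAt E z := by
  have hp : AnalyticAt ℂ (fun s => ((s - 1) ^ m)⁻¹) z :=
    ((analyticAt_id.sub analyticAt_const).pow m).inv (pow_ne_zero m (sub_ne_zero.2 hz))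
  rw [analyticOrderNatAt, show (fun s => E s / (s - 1) ^ m) = E * fun s => ((s - 1) ^ m)⁻¹ from
    funext fun s => by simp [div_eq_mul_inv],
    analyticOrderAt_mul (h.differentiable.analyticAt z) hp,
    hp.analyticOrderAt_eq_zero.2 (inv_ne_zero (pow_ne_zero m (sub_ne_zero.2 hz))), add_zero,
    ← analyticOrderNatAt]

end FA.SelbergZeroCount

end
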