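import Fermat.Agent.SelbergZeroCount.Ratio
import Fermat.Agent.SelbergZeroCount.Right
import Fermat.Agent.DerivZetaZeros.Winding
import Mathlib.Analysis.Complex.PhragmenLindelof

/-!
# Growth in strips and the horizontal edges

By Phragmén–Lindelöf `E` grows at most like a power in every vertical strip, so by Jensen the
argument changes by `O (log t)` along a horizontal segment.
-/

set_option autoImplicit false

noncomputable section

open Complex Filter Topology Set MeasureTheory Metric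
open scoped Real ComplexConjugate
open FA.DegreeGap (HasFunctionalEquation pt pt_re norm_lSeries_le one_sub_conj_pt)
open FA.DegreeOne (reflRatio conj_inv_eq)
open FA.LevinsonThird (continuousAt_logDeriv)

namespace FA.SelbergZeroCount

variable {a : ℕ → ℂ} {m : ℕ} {E : ℂ → ℂ} {r : ℕ} {lam : Fin r → ℝ} {mu : Fin r → ℂ} {Q : ℝ}
  {omega : ℂ}

/-- The value of `E` to the left of `0`. -/
theorem eq_left (h : HasFunctionalEquation a m E lam mu Q omega) {s : ℂ} (hs : s.re < 0) :
    E s = (s - 1) ^ m * (omega * reflRatio lam mu Q s * conj (LSeries a (1 - conj s))) := by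
  rw [h.functional_equation s hs, map_mul, ← conj_inv_eq h.Q_pos]
  ring

/-- **Polynomial growth in a strip.** -/
theorem exists_strip_bound (h : HasFunctionalEquation a m E lam mu Q omega) {A B : ℝ} (hA : A < 0)
    (hB : 1 < B) : ∃ (k : ℕ) (C : ℝ), 0 ≤ C ∧
      ∀ s : ℂ, A ≤ s.re → s.re ≤ B → ‖E s‖ ≤ C * (1 + |s.im|) ^ k := by
  obtain ⟨k₁, C₁, hC₁, hR⟩ := exists_norm_line (mu := mu) (σ := A) h.lam_pos h.mu_re h.Q_pos
    (by linarith)
  set S₁ := ∑' n, ‖LSeries.term a ((1 - A : ℝ) : ℂ) n‖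
  set S₂ := ∑' n, ‖LSeries.term a (B : ℂ) n‖
  have hS₁ : 0 ≤ S₁ := tsum_nonneg fun _ => norm_nonneg _
  have hS₂ : 0 ≤ S₂ := tsum_nonneg fun _ => norm_nonneg _
  set k := m + k₁
  set c : ℝ := A - 1
  set W := B - c + 1
  have hW : 1 ≤ W := by simp only [W, c]; linarith
  set D := (C₁ * S₁ + S₂) * (2 * W) ^ k
  have hD : 0 ≤ D := by positivity
  have hlow : ∀ s : ℂ, A ≤ s.re → 1 ≤ ‖s - c‖ := fun s hs => by
    refine le_trans ?_ (Complex.re_le_norm _)
    simp only [sub_re, ofReal_re, c]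
    linarith
  have hone : ∀ s : ℂ, A ≤ s.re → s.re ≤ B →
      ‖s - 1‖ ≤ W * (1 + |s.im|) ∧ 1 + |s.im| ≤ 2 * ‖s - c‖ := fun s h1 h2 => by
    constructor
    · refine (Complex.norm_le_abs_re_add_abs_im _).trans ?_
      simp only [sub_re, one_re, sub_im, one_im, sub_zero]
      have : |s.re - 1| ≤ W := by rw [abs_le]; simp only [W, c]; constructor <;> linarith
      nlinarith [abs_nonneg s.im]
    · have h3 := Complex.abs_im_le_norm (s - c)
      simp only [sub_im, ofReal_im, sub_zero] at h3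
      linarith [hlow s h1]
  set g : ℂ → ℂ := fun s => E s / (s - c) ^ k
  have hedge : ∀ s : ℂ, s.re = A ∨ s.re = B → ‖g s‖ ≤ D := fun s hs => by
    have hAB : A ≤ s.re ∧ s.re ≤ B := by
      rcases hs with e | e <;> rw [e] <;> constructor <;> linarith
    obtain ⟨h1, h2⟩ := hone s hAB.1 hAB.2
    have hp : 0 ≤ 1 + |s.im| := by positivity
    have hE : ‖E s‖ ≤ (W * (1 + |s.im|)) ^ m * ((C₁ * S₁ + S₂) * (1 + |s.im|) ^ k₁) := by
      have hk1 : 1 ≤ (1 + |s.im|) ^ k₁ := one_le_pow₀ (by linarith [abs_nonneg s.im])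
      rcases hs with e | e
      · have hsp : s = pt A s.im := by apply Complex.ext <;> simp [pt, e]
        rw [eq_left h (by linarith), norm_mul, norm_pow, norm_mul, norm_mul, h.norm_omega, one_mul,
          Complex.norm_conj]
        refine mul_le_mul (pow_le_pow_left₀ (norm_nonneg _) h1 m) ?_ (by positivity) (by positivity)
        have hL : ‖LSeries a (1 - conj s)‖ ≤ S₁ :=
          norm_lSeries_le (h.summable _ (by simp; linarith)) (by simp [e])
        have hR' := hR s.im
        rw [← hsp] at hR'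
        calc ‖reflRatio lam mu Q s‖ * ‖LSeries a (1 - conj s)‖
            ≤ C₁ * (1 + |s.im|) ^ k₁ * S₁ := mul_le_mul hR' hL (norm_nonneg _) (by positivity)
          _ = C₁ * S₁ * (1 + |s.im|) ^ k₁ := by ring
          _ ≤ _ := mul_le_mul_of_nonneg_right (by linarith) (by positivity)
      · rw [h.eq_series s (by linarith), norm_mul, norm_pow]
        refine mul_le_mul (pow_le_pow_left₀ (norm_nonneg _) h1 m) ?_ (norm_nonneg _) (by positivity)
        have hL : ‖LSeries a s‖ ≤ S₂ :=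
          norm_lSeries_le (h.summable _ (by simpa using hB)) (le_of_eq e.symm)
        calc ‖LSeries a s‖ ≤ (C₁ * S₁ + S₂) * 1 := by nlinarith [mul_nonneg hC₁ hS₁]
          _ ≤ _ := mul_le_mul_of_nonneg_left hk1 (by positivity)
    simp only [g]
    rw [norm_div, norm_pow, div_le_iff₀ (pow_pos (lt_of_lt_of_le one_pos (hlow s hAB.1)) k)]
    refine hE.trans ?_
    calc (W * (1 + |s.im|)) ^ m * ((C₁ * S₁ + S₂) * (1 + |s.im|) ^ k₁)
        = (C₁ * S₁ + S₂) * W ^ m * (1 + |s.im|) ^ k := by simp only [k, pow_add, mul_pow]; ring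
      _ ≤ (C₁ * S₁ + S₂) * W ^ k * (2 * ‖s - c‖) ^ k := by
          refine mul_le_mul (mul_le_mul_of_nonneg_left (pow_le_pow_right₀ hW (by omega))
            (by positivity)) (pow_le_pow_left₀ hp h2 k) (by positivity) (by positivity)
      _ = D * ‖s - c‖ ^ k := by simp only [D, mul_pow]; ring
  obtain ⟨N, C, hC⟩ := h.finite_order
  have hC0 : 0 ≤ C := nonneg_of_mul_nonneg_left ((norm_nonneg _).trans (hC 0)) (Real.exp_pos _)
  have hne : ∀ s : ℂ, A ≤ s.re → s - (c : ℂ) ≠ 0 := fun s hs e => by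
    have := hlow s hs
    rw [e, norm_zero] at this
    linarith
  have hdiff : DiffContOnCl ℂ g (re ⁻¹' Ioo A B) := by
    refine DifferentiableOn.diffContOnCl fun s hs => ?_
    have hs' : s.re ∈ Icc A B := closure_minimal (t := re ⁻¹' Icc A B)
      (preimage_mono Ioo_subset_Icc_self) (isClosed_Icc.preimage continuous_re) hs
    exact ((h.differentiable s).div ((differentiableAt_id.sub_const (c : ℂ)).pow k)
      (pow_ne_zero k (hne s hs'.1))).differentiableWithinAt
  have hgrow : ∃ κ < π / (B - A), ∃ M, g =O[comap (_root_.abs ∘ im) atTop ⊓ 𝓟 (re ⁻¹' Ioo A B)]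
      fun z => Real.exp (M * Real.exp (κ * |z.im|)) := by
    refine ⟨π / (2 * (B - A)), ?_, ?_⟩
    · rw [div_lt_div_iff₀ (by linarith) (by linarith)]
      nlinarith [Real.pi_pos]
    obtain ⟨κ, hκ⟩ : ∃ κ, κ = π / (2 * (B - A)) := ⟨_, rfl⟩
    have hκ0 : 0 < κ := by rw [hκ]; exact div_pos Real.pi_pos (by linarith)
    rw [← hκ]
    obtain ⟨P, -, hP⟩ := FA.DegreeGap.exists_pow_le_exp N hκ0
    refine ⟨C * ((1 + (|A| + |B|)) ^ N * |P|), Asymptotics.IsBigO.of_bound C ?_⟩
    filter_upwards [mem_inf_of_right (mem_principal_self _)] with s hs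
    simp only [mem_preimage, mem_Ioo] at hs
    simp only [g]
    rw [norm_div, norm_pow, Real.norm_of_nonneg (Real.exp_nonneg _)]
    refine (div_le_self (norm_nonneg _) (one_le_pow₀ (hlow s hs.1.le))).trans ((hC s).trans ?_)
    refine mul_le_mul_of_nonneg_left (Real.exp_le_exp.2 ?_) hC0
    have hnorm : 1 + ‖s‖ ≤ (1 + (|A| + |B|)) * (1 + |s.im|) := by
      have := Complex.norm_le_abs_re_add_abs_im s
      have : |s.re| ≤ |A| + |B| :=
        abs_le.2 ⟨by linarith [neg_abs_le A, abs_nonneg B],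
          by linarith [le_abs_self B, abs_nonneg A]⟩
      nlinarith [abs_nonneg s.im, abs_nonneg A, abs_nonneg B]
    calc C * (1 + ‖s‖) ^ N ≤ C * ((1 + (|A| + |B|)) ^ N * (1 + |s.im|) ^ N) := by
          rw [← mul_pow]
          gcongr
      _ ≤ C * ((1 + (|A| + |B|)) ^ N * (|P| * Real.exp (κ * |s.im|))) := by
          gcongr
          exact (hP s.im).trans
            (mul_le_mul_of_nonneg_right (le_abs_self P) (Real.exp_nonneg _))
      _ = _ := by ring
  refine ⟨k, D * W ^ k, mul_nonneg hD (by positivity), fun s h1 h2 => ?_⟩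
  have hb := PhragmenLindelof.vertical_strip hdiff hgrow (fun z hz => hedge z (Or.inl hz))
    (fun z hz => hedge z (Or.inr hz)) h1 h2
  simp only [g] at hb
  rw [norm_div, norm_pow, div_le_iff₀ (pow_pos (lt_of_lt_of_le one_pos (hlow s h1)) k)] at hb
  refine (hb.trans (mul_le_mul_of_nonneg_left (pow_le_pow_left₀ (norm_nonneg _) ?_ k) hD)).trans
    (le_of_eq (show D * (W * (1 + |s.im|)) ^ k = D * W ^ k * (1 + |s.im|) ^ k by
      rw [mul_pow W]; ring))
  refine (Complex.norm_le_abs_re_add_abs_im _).trans ?_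
  simp only [sub_re, ofReal_re, sub_im, ofReal_im, sub_zero]
  have : |s.re - c| ≤ W := by rw [abs_le]; simp only [W, c]; constructor <;> linarith
  nlinarith [abs_nonneg s.im]

/-- **A horizontal edge.** -/
theorem exists_horizontal (h : HasFunctionalEquation a m E lam mu Q omega) {α β : ℝ} (hα : α < 0)
    (hβ : 2 ≤ β) (hlow : ∀ t : ℝ, 1 / 2 ≤ (LSeries a (pt β t)).re) :
    ∃ K, 0 ≤ K ∧ ∀ t : ℝ, (∀ u ∈ Icc α β, E ((u : ℂ) + t * I) ≠ 0) →
      |(∫ u in α..β, deriv E ((u : ℂ) + t * I) / E ((u : ℂ) + t * I)).im| ≤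
        K * Real.log (|t| + 3) := by
  obtain ⟨R, hR⟩ : ∃ R, R = β - α := ⟨_, rfl⟩
  have hR0 : 0 < R := by linarith
  obtain ⟨K, hK, hexp⟩ := FA.RiemannMangoldt.exists_logDeriv_expansion (r₁ := R + 1) (r := R + 2)
    (r₂ := R) hR0.le (by linarith) (by linarith)
  obtain ⟨k, C, hC, hstrip⟩ := exists_strip_bound h (A := β - (R + 2)) (B := β + (R + 2))
    (by linarith) (by linarith)
  obtain ⟨M, hM⟩ : ∃ M, M = 2 * (C + 1) * (R + 3) ^ k := ⟨_, rfl⟩
  have hM1 : 1 ≤ M := by
    have : (1 : ℝ) ≤ (R + 3) ^ k := one_le_pow₀ (by linarith)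
    rw [hM]; nlinarith
  refine ⟨(2 * π + R) * (K * (Real.log M + k + 1)), ?_, fun t hne => ?_⟩
  · have := Real.log_nonneg hM1
    positivity
  have hl : 1 ≤ Real.log (|t| + 3) := by
    rw [Real.le_log_iff_exp_le (by positivity)]
    linarith [Real.exp_one_lt_d9, abs_nonneg t]
  obtain ⟨s₀, hs₀⟩ : ∃ s₀ : ℂ, s₀ = (β : ℂ) + t * I := ⟨_, rfl⟩
  obtain ⟨f, hf⟩ : ∃ f : ℂ → ℂ, f = fun z => E (s₀ + z) := ⟨_, rfl⟩
  have hfd : Differentiable ℂ f := hf ▸ h.differentiable.comp (differentiable_id.const_add s₀)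
  have hf0 : 1 / 2 ≤ ‖f 0‖ := by
    simp only [hf, add_zero, hs₀]
    rw [h.eq_series _ (by simp; linarith), norm_mul, norm_pow]
    calc (1 / 2 : ℝ) ≤ ‖LSeries a ((β : ℂ) + t * I)‖ := (hlow t).trans (Complex.re_le_norm _)
      _ ≤ _ := le_mul_of_one_le_left (norm_nonneg _) (one_le_pow₀ (le_trans (by simp; linarith)
          (Complex.re_le_norm _)))
  have hB1 : 1 ≤ M * (|t| + 3) ^ k :=
    one_le_mul_of_one_le_of_one_le hM1 (one_le_pow₀ (by linarith [abs_nonneg t]))
  obtain ⟨Z, hZ, hcard, hord, hlog⟩ := hexp univ f (M * (|t| + 3) ^ k) isOpen_univ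
    (subset_univ _) hfd.differentiableOn (norm_pos_iff.1 (lt_of_lt_of_le (by norm_num) hf0)) hB1
    fun z hz => by
      rw [mem_sphere_zero_iff_norm] at hz
      have hre := abs_le.1 ((Complex.abs_re_le_norm z).trans hz.le)
      have him : |(s₀ + z).im| ≤ |t| + (R + 2) := by
        rw [hs₀]
        simp
        linarith [abs_add_le t z.im, Complex.abs_im_le_norm z]
      calc ‖f z‖ ≤ C * (1 + |(s₀ + z).im|) ^ k := by
            rw [hf]
            exact hstrip _ (by simp [hs₀]; linarith) (by simp [hs₀]; linarith)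
        _ ≤ (C + 1) * ((R + 3) * (|t| + 3)) ^ k :=
            mul_le_mul (by linarith) (pow_le_pow_left₀ (by positivity)
              (by nlinarith [abs_nonneg t]) k) (by positivity) (by positivity)
        _ = M * (|t| + 3) ^ k * (1 / 2) := by rw [hM, mul_pow]; ring
        _ ≤ _ := mul_le_mul_of_nonneg_left hf0 (by linarith)
  obtain ⟨F, hF⟩ : ∃ F, F = K * (Real.log M + k + 1) * Real.log (|t| + 3) := ⟨_, rfl⟩
  have hKF : K * (Real.log (M * (|t| + 3) ^ k) + 1) ≤ F := by
    rw [hF, mul_assoc, Real.log_mul (by linarith) (by positivity), Real.log_pow]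
    refine mul_le_mul_of_nonneg_left ?_ hK
    nlinarith [Real.log_nonneg hM1]
  have hF0 : 0 ≤ F := le_trans (mul_nonneg hK (by linarith [Real.log_nonneg hB1])) hKF
  obtain ⟨Z', hZ'⟩ : ∃ Z', Z' = Z.map fun ρ => ρ + s₀ := ⟨_, rfl⟩
  have hroot : ∀ ρ ∈ Z', ∀ u ∈ uIcc α β, (u : ℂ) + t * I ≠ ρ := by
    intro ρ hρ u hu h'
    rw [uIcc_of_le (by linarith)] at hu
    rw [hZ'] at hρ
    obtain ⟨x, hx, rfl⟩ := Multiset.mem_map.1 hρ
    have hx' : 0 < Z.count x := Multiset.count_pos.2 hx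
    rw [← hord x (hZ x hx)] at hx'
    have hz : f x = 0 := apply_eq_zero_of_analyticOrderNatAt_ne_zero hx'.ne'
    refine hne u hu ?_
    rw [h', add_comm]
    simpa [hf] using hz
  obtain ⟨hRi, hRb⟩ := FA.DerivZetaZeros.roots_turn Z' hroot
  have hrem : ∀ u ∈ Icc α β, ‖deriv E ((u : ℂ) + t * I) / E ((u : ℂ) + t * I) -
      (Z'.map fun ρ => ((u : ℂ) + t * I - ρ)⁻¹).sum‖ ≤ F := by
    intro u hu
    have h1 := hlog ((u : ℂ) + t * I - s₀) (mem_closedBall_zero_iff.2 (by
      rw [hs₀, show (u : ℂ) + t * I - ((β : ℂ) + t * I) = ((u - β : ℝ) : ℂ) by push_cast; ring,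
        Complex.norm_real, Real.norm_eq_abs, abs_le]
      constructor <;> linarith [hu.1, hu.2])) (by simpa [hf] using hne u hu)
    simp only [hf, deriv_comp_const_add, add_sub_cancel] at h1
    refine le_trans (le_of_eq ?_) (h1.trans hKF)
    rw [hZ', Multiset.map_map]
    congr 3
    refine Multiset.map_congr rfl fun ρ _ => ?_
    simp only [Function.comp_apply]
    congr 1
    ring
  have hc : ContinuousOn (fun u : ℝ => deriv E ((u : ℂ) + t * I) / E ((u : ℂ) + t * I))
      (uIcc α β) := fun u hu => by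
    rw [uIcc_of_le (by linarith)] at hu
    exact (ContinuousAt.comp' (g := fun z => deriv E z / E z)
      (continuousAt_logDeriv isOpen_univ h.differentiable.differentiableOn (mem_univ _) (hne u hu))
      (f := fun v : ℝ => (v : ℂ) + t * I) (by fun_prop)).continuousWithinAt
  have hdiff : |((∫ u in α..β, deriv E ((u : ℂ) + t * I) / E ((u : ℂ) + t * I)) -
      ∫ u in α..β, (Z'.map fun ρ => ((u : ℂ) + t * I - ρ)⁻¹).sum).im| ≤ R * F := by
    refine (Complex.abs_im_le_norm _).trans ?_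
    rw [← intervalIntegral.integral_sub hc.intervalIntegrable hRi]
    refine (intervalIntegral.norm_integral_le_of_norm_le_const (C := F) fun u hu => ?_).trans ?_
    · rw [uIoc_of_le (by linarith)] at hu
      exact hrem u ⟨hu.1.le, hu.2⟩
    · rw [← hR, abs_of_pos hR0, mul_comm]
  have h2 := mul_le_mul_of_nonneg_left
    (show (Multiset.card Z' : ℝ) ≤ F by rw [hZ', Multiset.card_map]; exact hcard.trans hKF)
    (show 0 ≤ 2 * π by positivity)
  rw [show (2 * π + R) * (K * (Real.log M + k + 1)) * Real.log (|t| + 3) =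
    2 * π * F + R * F by rw [hF]; ring]
  rw [sub_im] at hdiff
  rw [abs_le] at hRb hdiff ⊢
  constructor <;> linarith

end FA.SelbergZeroCount

end
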