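import Fermat.Agent.SelbergMultiplicity.Reflection
import Fermat.Agent.LevinsonThird.Edges

/-!
# The argument of the quotient of the Gamma factors along a line

By `FA.SelbergStructure.tendsto_reflRatio` the argument on `re s = σ` is
`-(d t log t + κ t - τ log t) + O 1`.
-/

set_option autoImplicit false

noncomputable section

open Complex Filter Topology Set MeasureTheory
open scoped Real ComplexConjugate
open FA.DegreeGap (pt pt_re continuous_pt degree)
open FA.DegreeOne (reflRatio shiftT)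
open FA.SelbergStructure (normExp rateD tendsto_reflRatio)
open FA.SelbergMultiplicity (differentiableAt_reflRatio)

namespace FA.SelbergZeroCount

variable {r : ℕ} {lam : Fin r → ℝ} {mu : Fin r → ℂ} {Q σ : ℝ}

/-- The line meets no pole of the Gamma factors. -/
def IsGoodLine (lam : Fin r → ℝ) (mu : Fin r → ℂ) (σ : ℝ) : Prop :=
  ∀ j (n : ℕ), lam j * σ + (mu j).re ≠ -(n : ℝ)

theorem exists_goodLine (hlam : ∀ j, 0 < lam j) (mu : Fin r → ℂ) (c : ℝ) :
    ∃ σ, σ < c ∧ IsGoodLine lam mu σ := by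
  obtain ⟨σ, hσ, hc⟩ := (Set.countable_range fun p : Fin r × ℕ =>
    (-(p.2 : ℝ) - (mu p.1).re) / lam p.1).dense_compl ℝ |>.exists_lt c
  refine ⟨σ, hc, fun j n e => hσ ⟨(j, n), ?_⟩⟩
  rw [div_eq_iff (hlam j).ne']
  linarith

theorem reflRatio_conj (hQ : 0 < Q) (s : ℂ) :
    reflRatio lam (fun j => conj (mu j)) Q (conj s) = conj (reflRatio lam mu Q s) := by
  have harg : (Q : ℂ).arg ≠ π := by
    rw [arg_ofReal_of_nonneg hQ.le]
    exact Real.pi_ne_zero.symm
  rw [reflRatio, reflRatio, map_mul, map_prod, show (1 : ℂ) - 2 * conj s = conj (1 - 2 * s) by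
    simp [Complex.conj_ofNat], cpow_conj _ _ harg, conj_ofReal]
  congr 1
  refine Finset.prod_congr rfl fun j _ => ?_
  simp only [map_mul, map_inv₀, ← Complex.Gamma_conj]
  simp

theorem reflRatio_ne_zero (hlam : ∀ j, 0 < lam j) (hmu : ∀ j, 0 ≤ (mu j).re) (hQ : 0 < Q) {s : ℂ}
    (hs : s.re < 1) (hne : ∀ j (n : ℕ), (lam j : ℂ) * s + mu j ≠ -(n : ℂ)) :
    reflRatio lam mu Q s ≠ 0 := by
  refine mul_ne_zero (cpow_ne_zero_iff.2 (Or.inl (ofReal_ne_zero.2 hQ.ne')))
    (Finset.prod_ne_zero_iff.2 fun j _ => mul_ne_zero ((map_ne_zero _).2 ?_)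
      (inv_ne_zero (Complex.Gamma_ne_zero (hne j))))
  refine Complex.Gamma_ne_zero_of_re_pos ?_
  simp only [add_re, re_ofReal_mul, sub_re, one_re, Complex.conj_re]
  have := mul_pos (hlam j) (show 0 < 1 - s.re by linarith)
  linarith [hmu j]

theorem reflRatio_line_ne_zero (hlam : ∀ j, 0 < lam j) (hmu : ∀ j, 0 ≤ (mu j).re) (hQ : 0 < Q)
    (hσ : σ < 1) (hgood : IsGoodLine lam mu σ) (t : ℝ) : reflRatio lam mu Q (pt σ t) ≠ 0 :=
  reflRatio_ne_zero hlam hmu hQ (by rwa [pt_re]) fun j n e => hgood j n (by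
    have := congrArg Complex.re e
    simpa [pt] using this)

/-- The logarithmic derivative. -/
def ratioLog (lam : Fin r → ℝ) (mu : Fin r → ℂ) (Q : ℝ) (s : ℂ) : ℂ :=
  deriv (reflRatio lam mu Q) s / reflRatio lam mu Q s

theorem continuous_ratioLog_line (hlam : ∀ j, 0 < lam j) (hmu : ∀ j, 0 ≤ (mu j).re) (hQ : 0 < Q)
    (hσ : σ < 1) (hgood : IsGoodLine lam mu σ) :
    Continuous fun t => ratioLog lam mu Q (pt σ t) := by
  have hU : IsOpen {z : ℂ | z.re < 1} := isOpen_lt Complex.continuous_re continuous_const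
  refine continuous_iff_continuousAt.2 fun t => ContinuousAt.comp' ?_
    (continuous_pt σ).continuousAt
  exact FA.LevinsonThird.continuousAt_logDeriv hU
    (fun z hz => (differentiableAt_reflRatio hlam hmu hQ hz).differentiableWithinAt)
    (show (pt σ t).re < 1 by rwa [pt_re])
    (reflRatio_line_ne_zero hlam hmu hQ hσ hgood t)

theorem ratioLog_conj (hQ : 0 < Q) (s : ℂ) :
    ratioLog lam (fun j => conj (mu j)) Q (conj s) = conj (ratioLog lam mu Q s) := by
  have e : reflRatio lam (fun j => conj (mu j)) Q = conj ∘ reflRatio lam mu Q ∘ conj := by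
    funext z
    have := reflRatio_conj (lam := lam) (mu := mu) hQ (conj z)
    rwa [Complex.conj_conj] at this
  rw [ratioLog, ratioLog, reflRatio_conj hQ, e, deriv_conj_conj (𝕜 := ℂ), map_div₀]
  simp

theorem hasDerivAt_pt (σ v : ℝ) : HasDerivAt (pt σ) I v := by
  have := (((hasDerivAt_id' (v : ℂ)).mul_const I).const_add (σ : ℂ)).comp_ofReal
  rwa [one_mul] at this

theorem exists_arg_upper (hlam : ∀ j, 0 < lam j) (hmu : ∀ j, 0 ≤ (mu j).re) (hQ : 0 < Q)
    (hσ : σ < 1) (hgood : IsGoodLine lam mu σ) : ∃ C : ℝ, ∀ T : ℝ, 2 ≤ T →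
      |(∫ v in (0 : ℝ)..T, (ratioLog lam mu Q (pt σ v)).re) +
        (degree lam * (T * Real.log T) + rateD lam Q * T)| ≤ C * Real.log T := by
  obtain ⟨d, hd⟩ : ∃ d, d = degree lam := ⟨_, rfl⟩
  obtain ⟨κ, hκ⟩ : ∃ κ, κ = rateD lam Q := ⟨_, rfl⟩
  obtain ⟨τ, hτ⟩ : ∃ τ, τ = shiftT mu := ⟨_, rfl⟩
  obtain ⟨K, hK, hlim⟩ := tendsto_reflRatio (mu := mu) hlam hQ σ
  rw [← hd, ← hκ, ← hτ] at hlim
  rw [← hd, ← hκ]
  obtain ⟨g, hg⟩ : ∃ g : ℝ → ℂ, g = fun v =>
      reflRatio lam mu Q (pt σ v) * cexp (normExp d κ τ σ v) / K := ⟨_, rfl⟩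
  have hg1 : Tendsto g atTop (𝓝 1) := by
    rw [hg]
    simpa [div_self hK] using hlim.div_const K
  obtain ⟨T₀, hT₀⟩ := eventually_atTop.1 ((((Complex.continuous_re.tendsto _).comp hg1).eventually
    (lt_mem_nhds (show (0 : ℝ) < (1 : ℂ).re by norm_num))).and (eventually_ge_atTop (2 : ℝ)))
  have hT₀2 : 2 ≤ T₀ := (hT₀ T₀ le_rfl).2
  set G : ℝ → ℝ := fun v => (Complex.log (g v)).im - (d * (v * Real.log v) + κ * v - τ * Real.log v)
  have hG : ∀ v, T₀ ≤ v → HasDerivAt G (ratioLog lam mu Q (pt σ v)).re v := fun v hv => by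
    have hv0 : 0 < v := by linarith
    have hne := reflRatio_line_ne_zero (Q := Q) hlam hmu hQ hσ hgood v
    have h1 : HasDerivAt (fun u => reflRatio lam mu Q (pt σ u))
        (deriv (reflRatio lam mu Q) (pt σ v) * I) v :=
      (differentiableAt_reflRatio hlam hmu hQ (by rwa [pt_re])).hasDerivAt.comp v
        (hasDerivAt_pt σ v)
    have hlog := Real.hasDerivAt_log hv0.ne'
    have hA := (hlog.const_mul (-(d * (1 / 2 - σ))))
    have hB := ((((hasDerivAt_id' v).mul hlog).const_mul d).add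
      ((hasDerivAt_id' v).const_mul κ)).sub (hlog.const_mul τ)
    have h2 : HasDerivAt (fun u => normExp d κ τ σ u)
        (((-(d * (1 / 2 - σ)) * v⁻¹ : ℝ) : ℂ) +
          ((d * (1 * Real.log v + v * v⁻¹) + κ * 1 - τ * v⁻¹ : ℝ) : ℂ) * I) v :=
      (hA.ofReal_comp.add (hB.ofReal_comp.mul_const I))
    have h3 : HasDerivAt g ((deriv (reflRatio lam mu Q) (pt σ v) * I * cexp (normExp d κ τ σ v) +
        reflRatio lam mu Q (pt σ v) * (cexp (normExp d κ τ σ v) *
          (((-(d * (1 / 2 - σ)) * v⁻¹ : ℝ) : ℂ) +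
            ((d * (1 * Real.log v + v * v⁻¹) + κ * 1 - τ * v⁻¹ : ℝ) : ℂ) * I))) / K) v := by
      rw [hg]
      exact (h1.mul h2.cexp).div_const K
    have h4 := Complex.imCLM.hasFDerivAt.comp_hasDerivAt v
      (h3.clog_real (Or.inl (hT₀ v hv).1))
    refine (h4.sub hB).congr_deriv ?_
    have e : (deriv (reflRatio lam mu Q) (pt σ v) * I * cexp (normExp d κ τ σ v) +
        reflRatio lam mu Q (pt σ v) * (cexp (normExp d κ τ σ v) *
          (((-(d * (1 / 2 - σ)) * v⁻¹ : ℝ) : ℂ) +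
            ((d * (1 * Real.log v + v * v⁻¹) + κ * 1 - τ * v⁻¹ : ℝ) : ℂ) * I))) / K / g v =
        ratioLog lam mu Q (pt σ v) * I + (((-(d * (1 / 2 - σ)) * v⁻¹ : ℝ) : ℂ) +
          ((d * (1 * Real.log v + v * v⁻¹) + κ * 1 - τ * v⁻¹ : ℝ) : ℂ) * I) := by
      rw [hg, ratioLog]
      have := Complex.exp_ne_zero (normExp d κ τ σ v)
      field_simp
    rw [Complex.imCLM_apply, e]
    simp
  have hc : Continuous fun v => (ratioLog lam mu Q (pt σ v)).re :=
    Complex.continuous_re.comp (continuous_ratioLog_line hlam hmu hQ hσ hgood)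
  obtain ⟨M, hM⟩ := isCompact_Icc.exists_bound_of_continuousOn (s := Icc 2 T₀)
    (f := fun T : ℝ => (∫ v in (0 : ℝ)..T, (ratioLog lam mu Q (pt σ v)).re) +
      (d * (T * Real.log T) + κ * T))
    (((intervalIntegral.continuous_primitive (fun a b => hc.intervalIntegrable a b) 0).continuousOn
      ).add (((continuous_id.continuousOn.mul (Real.continuousOn_log.mono fun x hx => by
        simp only [mem_compl_iff, mem_singleton_iff]
        linarith [hx.1])).const_smul d).add (continuous_const.mul continuous_id).continuousOn))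
  have hl2 : 0 < Real.log 2 := Real.log_pos one_lt_two
  set D := |M| + 2 * π + |τ| * |Real.log T₀|
  refine ⟨D / Real.log 2 + |τ|, fun T hT => ?_⟩
  have hlT : Real.log 2 ≤ Real.log T := Real.log_le_log two_pos hT
  have hD : D ≤ D / Real.log 2 * Real.log T := by
    rw [div_mul_eq_mul_div, le_div_iff₀ hl2]
    exact mul_le_mul_of_nonneg_left hlT (by positivity)
  have hτT : 0 ≤ |τ| * Real.log T := mul_nonneg (abs_nonneg τ) (by linarith)
  have hbig : |(∫ v in (0 : ℝ)..T, (ratioLog lam mu Q (pt σ v)).re) +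
      (d * (T * Real.log T) + κ * T)| ≤ D + |τ| * Real.log T := by
    rcases le_or_gt T T₀ with hle | hlt
    · refine ((Real.norm_eq_abs _).symm.trans_le (hM T ⟨hT, hle⟩)).trans ?_
      simp only [D]
      nlinarith [le_abs_self M, Real.pi_pos, abs_nonneg τ, abs_nonneg (Real.log T₀)]
    have hi := intervalIntegral.integral_eq_sub_of_hasDerivAt (a := T₀) (b := T)
      (fun v hv => hG v (by rw [uIcc_of_le hlt.le] at hv; exact hv.1)) (hc.intervalIntegrable _ _)
    have h0 := (Real.norm_eq_abs _).symm.trans_le (hM T₀ ⟨hT₀2, le_rfl⟩)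
    have hA1 := Complex.abs_arg_le_pi (g T)
    have hA0 := Complex.abs_arg_le_pi (g T₀)
    have ht1 : |τ * Real.log T₀| = |τ| * |Real.log T₀| := abs_mul _ _
    have ht2 : |τ * Real.log T| = |τ| * Real.log T := by
      rw [abs_mul, abs_of_nonneg (show 0 ≤ Real.log T by linarith)]
    simp only [G, Complex.log_im] at hi
    rw [← intervalIntegral.integral_add_adjacent_intervals (b := T₀) (hc.intervalIntegrable _ _)
      (hc.intervalIntegrable _ _)]
    simp only [D]
    rw [hi]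
    have h1 := abs_le.1 h0
    have h2 := abs_le.1 hA1
    have h3 := abs_le.1 hA0
    have h4 := abs_le.1 ht1.le
    have h5 := abs_le.1 ht2.le
    have h6 := le_abs_self M
    rw [abs_le]
    constructor <;> linarith
  refine hbig.trans ?_
  rw [add_mul]
  exact add_le_add hD le_rfl

/-- **The whole line up to height `T`.** -/
theorem exists_arg_line (hlam : ∀ j, 0 < lam j) (hmu : ∀ j, 0 ≤ (mu j).re) (hQ : 0 < Q)
    (hσ : σ < 1) (hgood : IsGoodLine lam mu σ) : ∃ C : ℝ, ∀ T : ℝ, 2 ≤ T →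
      |(∫ v in (-T)..T, (ratioLog lam mu Q (pt σ v)).re) +
        2 * (degree lam * (T * Real.log T) + rateD lam Q * T)| ≤ C * Real.log T := by
  have hgood' : IsGoodLine lam (fun j => conj (mu j)) σ := fun j n => by
    simpa using hgood j n
  obtain ⟨C, hC⟩ := exists_arg_upper hlam hmu hQ hσ hgood
  obtain ⟨C', hC'⟩ := exists_arg_upper (mu := fun j => conj (mu j)) hlam
    (fun j => by simpa using hmu j) hQ hσ hgood'
  refine ⟨C + C', fun T hT => ?_⟩
  have hc : Continuous fun v => (ratioLog lam mu Q (pt σ v)).re :=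
    Complex.continuous_re.comp (continuous_ratioLog_line hlam hmu hQ hσ hgood)
  have e : (∫ v in (-T)..0, (ratioLog lam mu Q (pt σ v)).re) =
      ∫ v in (0 : ℝ)..T, (ratioLog lam (fun j => conj (mu j)) Q (pt σ v)).re := by
    rw [show (0 : ℝ) = -0 from neg_zero.symm, ← intervalIntegral.integral_comp_neg, neg_zero]
    refine intervalIntegral.integral_congr fun v _ => ?_
    rw [show pt σ v = conj (pt σ (-v)) by apply Complex.ext <;> simp [pt], ratioLog_conj hQ,
      Complex.conj_re]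
  rw [← intervalIntegral.integral_add_adjacent_intervals (b := (0 : ℝ))
    (hc.intervalIntegrable _ _) (hc.intervalIntegrable _ _), e]
  have h1 := abs_le.1 (hC T hT)
  have h2 := abs_le.1 (hC' T hT)
  rw [abs_le]
  constructor <;> linarith [h1.1, h1.2, h2.1, h2.2, add_mul C C' (Real.log T)]

theorem exists_norm_upper (hlam : ∀ j, 0 < lam j) (hmu : ∀ j, 0 ≤ (mu j).re) (hQ : 0 < Q)
    (hσ : σ < 1) : ∃ (k : ℕ) (C : ℝ), 0 ≤ C ∧
      ∀ t : ℝ, 0 ≤ t → ‖reflRatio lam mu Q (pt σ t)‖ ≤ C * (1 + t) ^ k := by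
  obtain ⟨K, hK, hlim⟩ := tendsto_reflRatio (mu := mu) hlam hQ σ
  obtain ⟨T₀, hT₀⟩ := eventually_atTop.1 ((hlim.norm.eventually
    (Iic_mem_nhds (lt_add_one ‖K‖))).and (eventually_ge_atTop (1 : ℝ)))
  have hc : Continuous fun t => reflRatio lam mu Q (pt σ t) := continuous_iff_continuousAt.2
    fun t => (differentiableAt_reflRatio hlam hmu hQ (by rwa [pt_re])).continuousAt.comp'
      (continuous_pt σ).continuousAt
  obtain ⟨M, hM⟩ := isCompact_Icc.exists_bound_of_continuousOn (s := Icc 0 T₀) hc.continuousOn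
  set k := ⌈degree lam * (1 / 2 - σ)⌉₊
  refine ⟨k, max M (‖K‖ + 1), le_max_of_le_right (by positivity), fun t ht => ?_⟩
  have hp : 1 ≤ (1 + t) ^ k := one_le_pow₀ (by linarith)
  rcases le_or_gt t T₀ with hle | hlt
  · exact ((hM t ⟨ht, hle⟩).trans (le_max_left _ _)).trans
      (le_mul_of_one_le_right (le_max_of_le_right (by positivity)) hp)
  obtain ⟨h1, h2⟩ := hT₀ t hlt.le
  rw [norm_mul, Complex.norm_exp] at h1
  simp only [normExp, add_re, mul_re, ofReal_re, ofReal_im, I_re, I_im, mul_zero, zero_mul,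
    sub_zero, add_zero] at h1
  rw [neg_mul, Real.exp_neg, ← div_eq_mul_inv, div_le_iff₀ (Real.exp_pos _)] at h1
  refine h1.trans (mul_le_mul (le_max_right _ _) ?_ (Real.exp_nonneg _)
    (le_max_of_le_right (by positivity)))
  rw [mul_comm, ← Real.rpow_def_of_pos (by linarith), ← Real.rpow_natCast]
  exact (Real.rpow_le_rpow_of_exponent_le h2 (Nat.le_ceil _)).trans
    (Real.rpow_le_rpow (by linarith) (by linarith) (by positivity))

/-- The quotient grows at most like a power. -/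
theorem exists_norm_line (hlam : ∀ j, 0 < lam j) (hmu : ∀ j, 0 ≤ (mu j).re) (hQ : 0 < Q)
    (hσ : σ < 1) : ∃ (k : ℕ) (C : ℝ), 0 ≤ C ∧
      ∀ t : ℝ, ‖reflRatio lam mu Q (pt σ t)‖ ≤ C * (1 + |t|) ^ k := by
  obtain ⟨k, C, hC, h⟩ := exists_norm_upper hlam hmu hQ hσ
  obtain ⟨k', C', hC', h'⟩ := exists_norm_upper (mu := fun j => conj (mu j)) hlam
    (fun j => by simpa using hmu j) hQ hσ
  refine ⟨k + k', C + C', by positivity, fun t => ?_⟩
  have hp : ∀ i, i ≤ k + k' → (1 + |t|) ^ i ≤ (1 + |t|) ^ (k + k') := fun i hi =>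
    pow_le_pow_right₀ (by linarith [abs_nonneg t]) hi
  rcases le_total 0 t with ht | ht
  · refine (h t ht).trans ?_
    rw [← abs_of_nonneg ht]
    simp only [abs_abs]
    exact mul_le_mul (by linarith) (hp k (by omega)) (by positivity) (by positivity)
  · have e := h' (-t) (by linarith)
    rw [show pt σ (-t) = conj (pt σ t) by apply Complex.ext <;> simp [pt], reflRatio_conj hQ,
      Complex.norm_conj, ← abs_of_nonpos ht] at e
    exact e.trans (mul_le_mul (by linarith) (hp k' (by omega)) (by positivity) (by positivity))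

end FA.SelbergZeroCount

end
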